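import Mathlib
import Fermat.Prelude.Def_ModularCurve_LaurentCoeff

/-!
# S29 / M4b (helper149): `p`-th roots of algebraic Laurent series are algebraic

`K` algebraically closed of characteristic zero, `ι : K →+* L` a field embedding.  If
`φ ∈ L((q))` satisfies `φ ^ p = ι(W)` with `W ∈ K((q))` and `p ≠ 0`, then `φ = ι(v)` for some
`v ∈ K((q))` (`KumRoot_exists_of_pow_eq`).  Ingredients: Hensel's lemma in `K⟦q⟧`
(`KumRoot_exists_powerSeries_root`), hence `p`-th roots in `K((q))` of series whose order is
divisible by `p` (`KumRoot_exists_laurent_root`), and the fact that the `p`-th roots of unity of the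
field `L((q))` are constants coming from `K`.
-/

set_option autoImplicit false

noncomputable section

namespace Fermat.Agent.S29.H149

open ModularCurve Polynomial

section PowerSeriesRoot

variable {K : Type*} [Field K]

/-- Hensel: over an algebraically closed field in which `p ≠ 0`, a power series with nonzero
constant coefficient has a `p`-th root. -/
theorem KumRoot_exists_powerSeries_root [IsAlgClosed K] {p : ℕ} (hp : (p : K) ≠ 0)
    (B : PowerSeries K) (hB : PowerSeries.constantCoeff B ≠ 0) :
    ∃ P : PowerSeries K, P ^ p = B := by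
  have hp0 : 0 < p := by
    rcases Nat.eq_zero_or_pos p with rfl | h
    · simp at hp
    · exact h
  obtain ⟨a₀, ha₀⟩ := IsAlgClosed.exists_pow_nat_eq (PowerSeries.constantCoeff B) hp0
  have ha₀0 : a₀ ≠ 0 := by
    rintro rfl
    rw [zero_pow hp0.ne'] at ha₀
    exact hB ha₀.symm
  set I : Ideal (PowerSeries K) := Ideal.span {PowerSeries.X} with hI
  have hmem : ∀ x : PowerSeries K, x ∈ I ↔ PowerSeries.constantCoeff x = 0 := by
    intro x
    rw [hI, Ideal.mem_span_singleton, PowerSeries.X_dvd_iff]
  set f : (PowerSeries K)[X] := X ^ p - C B with hf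
  have hmonic : f.Monic := monic_X_pow_sub_C B hp0.ne'
  have h1 : f.eval (PowerSeries.C a₀) ∈ I := by
    rw [hmem, hf]
    simp [ha₀]
  have h2 : IsUnit (Ideal.Quotient.mk I (f.derivative.eval (PowerSeries.C a₀))) := by
    apply IsUnit.map
    rw [hf]
    simp only [derivative_sub, derivative_X_pow, derivative_C, sub_zero, eval_mul, eval_C,
      eval_pow, eval_X]
    rw [PowerSeries.isUnit_iff_constantCoeff]
    simp only [map_mul, map_pow, PowerSeries.constantCoeff_C, map_natCast]
    exact IsUnit.mk0 _ (mul_ne_zero hp (pow_ne_zero _ ha₀0))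
  obtain ⟨a, ha, -⟩ := HenselianRing.is_henselian (I := I) f hmonic (PowerSeries.C a₀) h1 h2
  refine ⟨a, ?_⟩
  rw [IsRoot.def, hf] at ha
  simp only [eval_sub, eval_pow, eval_X, eval_C] at ha
  exact sub_eq_zero.mp ha

end PowerSeriesRoot

section LaurentRoot

variable {K : Type*} [Field K]

/-- `p`-th roots of Laurent series whose order is divisible by `p`. -/
theorem KumRoot_exists_laurent_root [IsAlgClosed K] {p : ℕ} (hp : (p : K) ≠ 0)
    (W : LaurentSeries K) (hW : W ≠ 0) (hdvd : (p : ℤ) ∣ W.order) :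
    ∃ v : LaurentSeries K, v ^ p = W := by
  obtain ⟨m, hm⟩ := hdvd
  have hB : PowerSeries.constantCoeff W.powerSeriesPart ≠ 0 := by
    rw [← PowerSeries.coeff_zero_eq_constantCoeff_apply, LaurentSeries.powerSeriesPart_coeff]
    simpa using (HahnSeries.coeff_order_eq_zero.not.mpr hW)
  obtain ⟨P, hP⟩ := KumRoot_exists_powerSeries_root hp W.powerSeriesPart hB
  refine ⟨HahnSeries.single m 1 * HahnSeries.ofPowerSeries ℤ K P, ?_⟩
  rw [mul_pow, HahnSeries.single_pow, one_pow, ← map_pow, hP, nsmul_eq_mul, ← hm]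
  exact LaurentSeries.single_order_mul_powerSeriesPart W

end LaurentRoot

section Descent

variable {K L : Type*} [Field K] [Field L]

theorem KumRoot_coeffMap_injective (ι : K →+* L) : Function.Injective (coeffMap ι) := by
  intro x y h
  ext n
  have := congrArg (fun z => z.coeff n) h
  simp only [coeffMap_coeff] at this
  exact ι.injective this

theorem KumRoot_order_coeffMap (ι : K →+* L) (W : LaurentSeries K) :
    (coeffMap ι W).order = W.order := by
  by_cases hW : W = 0
  · rw [hW, map_zero, HahnSeries.order_zero, HahnSeries.order_zero]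
  · have hW' : coeffMap ι W ≠ 0 := fun h =>
      hW (KumRoot_coeffMap_injective ι (h.trans (map_zero _).symm))
    apply le_antisymm
    · apply HahnSeries.order_le_of_coeff_ne_zero
      rw [coeffMap_coeff]
      exact (map_ne_zero ι).mpr (HahnSeries.coeff_order_eq_zero.not.mpr hW)
    · apply HahnSeries.order_le_of_coeff_ne_zero
      have := HahnSeries.coeff_order_eq_zero.not.mpr hW'
      rw [coeffMap_coeff] at this
      exact fun h => this (by rw [h, map_zero])

theorem KumRoot_order_pow (φ : LaurentSeries L) (p : ℕ) : (φ ^ p).order = p * φ.order := by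
  by_cases hφ : φ = 0
  · rcases Nat.eq_zero_or_pos p with rfl | hp
    · simp
    · rw [hφ, zero_pow hp.ne']
      simp
  · induction p with
    | zero => simp
    | succ p ih =>
      rw [pow_succ, HahnSeries.order_mul (pow_ne_zero _ hφ) hφ, ih]
      push_cast
      ring

theorem KumRoot_coeffMap_C (ι : K →+* L) (c : K) :
    coeffMap ι (HahnSeries.C c) = HahnSeries.C (ι c) := by
  rw [HahnSeries.C_apply, coeffMap_single]
  rfl

/-- **`p`-th roots of algebraic Laurent series are algebraic.** -/
theorem KumRoot_exists_of_pow_eq [IsAlgClosed K] [CharZero K] (ι : K →+* L) {p : ℕ}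
    (hp : p ≠ 0) {φ : LaurentSeries L} {W : LaurentSeries K} (h : φ ^ p = coeffMap ι W) :
    ∃ v : LaurentSeries K, coeffMap ι v = φ := by
  have hpK : (p : K) ≠ 0 := Nat.cast_ne_zero.mpr hp
  by_cases hW : W = 0
  · refine ⟨0, ?_⟩
    rw [hW, map_zero] at h
    rw [map_zero]
    exact (pow_eq_zero_iff hp).mp h |>.symm
  have hdvd : (p : ℤ) ∣ W.order := by
    refine ⟨φ.order, ?_⟩
    rw [← KumRoot_order_coeffMap ι W, ← h, KumRoot_order_pow]
  obtain ⟨v₀, hv₀⟩ := KumRoot_exists_laurent_root hpK W hW hdvd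
  have hv₀0 : v₀ ≠ 0 := by
    rintro rfl
    rw [zero_pow hp] at hv₀
    exact hW hv₀.symm
  set ψ : LaurentSeries L := coeffMap ι v₀ with hψ
  have hψ0 : ψ ≠ 0 := fun h0 =>
    hv₀0 (KumRoot_coeffMap_injective ι (h0.trans (map_zero _).symm))
  have hpow : (φ / ψ) ^ p = 1 := by
    rw [div_pow, h, ← hv₀, map_pow, div_self (pow_ne_zero _ hψ0)]
  have : NeZero p := ⟨hp⟩
  have : NeZero (p : K) := ⟨hpK⟩
  obtain ⟨ζ₀, hζ₀⟩ := HasEnoughRootsOfUnity.exists_primitiveRoot K p
  have hinj : Function.Injective ((HahnSeries.C : L →+* LaurentSeries L).comp ι) :=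
    (HahnSeries.C_injective).comp ι.injective
  have hζ : IsPrimitiveRoot ((HahnSeries.C : L →+* LaurentSeries L) (ι ζ₀)) p :=
    hζ₀.map_of_injective (f := (HahnSeries.C : L →+* LaurentSeries L).comp ι) hinj
  obtain ⟨i, -, hi⟩ := hζ.eq_pow_of_pow_eq_one hpow
  refine ⟨HahnSeries.C (ζ₀ ^ i) * v₀, ?_⟩
  rw [map_mul, KumRoot_coeffMap_C, map_pow, map_pow, hi, ← hψ, div_mul_cancel₀ _ hψ0]

end Descent

end Fermat.Agent.S29.H149
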