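import Fermat.Agent.S29.M4b.Defs
import Fermat.Agent.S29.H882.Inter
import Fermat.Agent.S29.H149.KumRoot

/-!
# S29 / M4b, piece `K4-UNIQ` (helper149): the Kummer class of a character is unique

`isKum_unique : IsKum N p c x → IsKum N p c x' → x = x'` (exact type of
`M4b/Skeleton.lean`, sub-architect helper822).

Proof.  Data `(f, t, U)`, `(f', t', U')`.  `V := U * U' ^ (p-1)` is holomorphic, `Γ₀(N)`-invariant
(`ζ ^ p = 1`) and `V ^ p = U ^ p * (U' ^ p) ^ (p-1)` is good, hence `V` is good and its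
`q`-expansion `φ` lies in `F_ℂ` (MERO, `H882.qexpFun_mem_FC`).  `φ ^ p` is the image of
`w := (f t^p) (f' t'^p)^(p-1) ∈ FF N`, so `φ` has algebraic coefficients (`KumRoot`), hence
`φ = ι v` with `v ∈ F_ℂ ∩ ℚ̄((q)) = FF N` (`H882.mem_laurentBaseChange_of_coeffMap_mem`).  Then
`f / f' = (v / (t t'^(p-1) f'))^p` and the `H455` Kummer API gives `x - x' = 0`.
-/

set_option autoImplicit false

noncomputable section

open ModularCurve AlgebraicCurve CongruenceSubgroup UpperHalfPlane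
open scoped MatrixGroups Manifold

namespace Fermat.Agent.S29.H149

open Fermat.Agent.S24 Fermat.Agent.S29 Fermat.Agent.S29.M4b

/-! ### Analytic preliminaries -/

theorem KumUniq_zetaP_pow (p : ℕ) [NeZero p] : zetaP p ^ p = 1 := by
  unfold zetaP
  rw [← Complex.exp_nat_mul]
  have hp : (p : ℂ) ≠ 0 := Nat.cast_ne_zero.mpr (NeZero.ne p)
  have : (p : ℂ) * (2 * Real.pi * Complex.I / p) = 2 * Real.pi * Complex.I := by
    field_simp
  rw [this, Complex.exp_two_pi_mul_I]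

/-- Exponential growth of a function follows from exponential growth of a power. -/
theorem KumUniq_expGrowth_of_pow {f : ℍ → ℂ} {p : ℕ} (hp : p ≠ 0)
    (h : H648.ExpGrowth (fun τ => f τ ^ p)) : H648.ExpGrowth f := by
  obtain ⟨C, m, hC⟩ := h
  refine ⟨1 + max C 0, m, fun τ hτ => ?_⟩
  have h1 := hC τ hτ
  rw [norm_pow] at h1
  have h2 : ‖f τ‖ ≤ 1 + ‖f τ‖ ^ p := by
    rcases le_or_gt ‖f τ‖ 1 with h | h
    · linarith [pow_nonneg (norm_nonneg (f τ)) p]
    · have : ‖f τ‖ ≤ ‖f τ‖ ^ p := le_self_pow₀ h.le hp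
      linarith
  have h3 : (1 : ℝ) ≤ Real.exp (2 * Real.pi * m * τ.im) :=
    Real.one_le_exp (mul_nonneg (by positivity) τ.im_pos.le)
  have h4 : C * Real.exp (2 * Real.pi * m * τ.im)
      ≤ max C 0 * Real.exp (2 * Real.pi * m * τ.im) :=
    mul_le_mul_of_nonneg_right (le_max_left _ _) (Real.exp_pos _).le
  calc ‖f τ‖ ≤ 1 + ‖f τ‖ ^ p := h2
    _ ≤ 1 + C * Real.exp (2 * Real.pi * m * τ.im) := by linarith
    _ ≤ Real.exp (2 * Real.pi * m * τ.im) + max C 0 * Real.exp (2 * Real.pi * m * τ.im) := by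
        linarith
    _ = (1 + max C 0) * Real.exp (2 * Real.pi * m * τ.im) := by ring

/-- A holomorphic `Γ₀(N)`-invariant function with a good power is good. -/
theorem KumUniq_mem_goodRing_of_pow {N : ℕ} {p : ℕ} (hp : p ≠ 0) {V : ℍ → ℂ}
    (hV : MDifferentiable 𝓘(ℂ) 𝓘(ℂ) V) (hinv : ∀ γ ∈ Gamma0 N, ∀ τ : ℍ, V (γ • τ) = V τ)
    (hpow : (fun τ => V τ ^ p) ∈ H648.goodRing N) : V ∈ H648.goodRing N :=
  ⟨hV, hinv, fun g => KumUniq_expGrowth_of_pow hp (hpow.2.2 g)⟩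

section Twisted

variable {N : ℕ} {p : ℕ} [NeZero p]

/-- The product `U * U' ^ (p-1)` of two twisted functions of the same character is invariant. -/
theorem KumUniq_invariant {c : G0 N → ZMod p} {U U' : ℍ → ℂ} (hU : HasChar N p c U)
    (hU' : HasChar N p c U') (γ : SL(2, ℤ)) (hγ : γ ∈ Gamma0 N) (τ : ℍ) :
    U (γ • τ) * U' (γ • τ) ^ (p - 1) = U τ * U' τ ^ (p - 1) := by
  have h1 := hU ⟨γ, hγ⟩ τ
  have h2 := hU' ⟨γ, hγ⟩ τ
  simp only at h1 h2
  rw [h1, h2, mul_pow]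
  set a := (c ⟨γ, hγ⟩).val
  have hp1 : 1 ≤ p := Nat.one_le_iff_ne_zero.mpr (NeZero.ne p)
  have hz : zetaP p ^ a * (zetaP p ^ a) ^ (p - 1) = 1 := by
    rw [← pow_succ', Nat.sub_add_cancel hp1, ← pow_mul, mul_comm, pow_mul, KumUniq_zetaP_pow,
      one_pow]
  calc zetaP p ^ a * U τ * ((zetaP p ^ a) ^ (p - 1) * U' τ ^ (p - 1))
      = (zetaP p ^ a * (zetaP p ^ a) ^ (p - 1)) * (U τ * U' τ ^ (p - 1)) := by ring
    _ = U τ * U' τ ^ (p - 1) := by rw [hz, one_mul]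

/-- `V = U * U' ^ (p-1)` is good. -/
theorem KumUniq_mem_goodRing {c : G0 N → ZMod p} {U U' : ℍ → ℂ} (hU : IsTwisted N p c U)
    (hU' : IsTwisted N p c U') :
    (fun τ => U τ * U' τ ^ (p - 1)) ∈ H648.goodRing N := by
  have hp1 : 1 ≤ p := Nat.one_le_iff_ne_zero.mpr (NeZero.ne p)
  refine KumUniq_mem_goodRing_of_pow (NeZero.ne p) (hU.mdiff.mul (hU'.mdiff.pow (p - 1)))
    (fun γ hγ τ => KumUniq_invariant hU.hasChar hU'.hasChar γ hγ τ) ?_
  have h := (H648.goodRing N).mul_mem hU.pow_mem ((H648.goodRing N).pow_mem hU'.pow_mem (p - 1))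
  have e : (fun τ => (U τ * U' τ ^ (p - 1)) ^ p)
      = (fun τ => U τ ^ p) * (fun τ => U' τ ^ p) ^ (p - 1) := by
    funext τ
    simp only [Pi.mul_apply, Pi.pow_apply]
    rw [mul_pow, ← pow_mul, ← pow_mul, mul_comm (p - 1) p]
  rw [e]
  exact h

end Twisted

/-! ### The key algebraic consequence -/

section Key

variable {N : ℕ} [NeZero N] {p : ℕ} [NeZero p]

/-- If `U ^ p` realises `F₁` and `U' ^ p` realises `F₂`, `U`, `U'` twisted of the same character,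
then `F₁ * F₂ ^ (p-1)` is a `p`-th power in `FF N`. -/
theorem KumUniq_exists_pow_eq {c : G0 N → ZMod p} {U U' : ℍ → ℂ} {F₁ F₂ : FF N}
    (hU : IsTwisted N p c U) (hU' : IsTwisted N p c U')
    (h1 : Realises N F₁ (fun τ => U τ ^ p)) (h2 : Realises N F₂ (fun τ => U' τ ^ p)) :
    ∃ v : FF N, v ^ p = F₁ * F₂ ^ (p - 1) := by
  have hp : p ≠ 0 := NeZero.ne p
  set V : ℍ → ℂ := fun τ => U τ * U' τ ^ (p - 1) with hVdef
  have hV : V ∈ H648.goodRing N := KumUniq_mem_goodRing hU hU'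
  have hVq := H882.hasQExp_of_mem_goodRing hV
  have hG : H708.HasQExp 1 (fun τ => U τ ^ p)
      (coeffMap Deg457.iotaC ((F₁ : FF N) : LaurentSeries Kbar)) :=
    ⟨H882.isMerInf_of_mem_goodRing h1.1, h1.2⟩
  have hG' : H708.HasQExp 1 (fun τ => U' τ ^ p)
      (coeffMap Deg457.iotaC ((F₂ : FF N) : LaurentSeries Kbar)) :=
    ⟨H882.isMerInf_of_mem_goodRing h2.1, h2.2⟩
  have e : V ^ p = (fun τ => U τ ^ p) * (fun τ => U' τ ^ p) ^ (p - 1) := by
    funext τ
    simp only [Pi.mul_apply, Pi.pow_apply, hVdef]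
    rw [mul_pow, ← pow_mul, ← pow_mul, mul_comm (p - 1) p]
  have hq1 := hVq.pow p
  have hq2 := hG.mul (hG'.pow (p - 1))
  rw [e] at hq1
  have hφ : H708.qexpFun 1 V ^ p
      = coeffMap Deg457.iotaC (((F₁ : FF N) : LaurentSeries Kbar)
          * ((F₂ : FF N) : LaurentSeries Kbar) ^ (p - 1)) := by
    rw [map_mul, map_pow]
    exact hq1.unique hq2
  obtain ⟨v, hv⟩ := KumRoot_exists_of_pow_eq Deg457.iotaC hp hφ
  have hvmem : v ∈ modularFunctionFieldBar N := by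
    apply H882.mem_laurentBaseChange_of_coeffMap_mem Deg457.iotaC
    rw [hv]
    exact H882.qexpFun_mem_FC hV
  refine ⟨⟨v, hvmem⟩, ?_⟩
  apply Subtype.ext
  apply KumRoot_coeffMap_injective Deg457.iotaC
  show coeffMap Deg457.iotaC (v ^ p) = coeffMap Deg457.iotaC
    (((F₁ : FF N) : LaurentSeries Kbar) * ((F₂ : FF N) : LaurentSeries Kbar) ^ (p - 1))
  rw [map_pow, hv, hφ]

end Key

/-! ### The piece -/

section Piece

variable (N : ℕ) [NeZero N] (p : ℕ) [NeZero p]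

/-- PIECE `K4-UNIQ`: the Kummer class of a character is unique. -/
theorem isKum_unique {c : G0 N → ZMod p} {x x' : JZero N}
    (h : IsKum N p c x) (h' : IsKum N p c x') : x = x' := by
  obtain ⟨f, t, U, ht, hx, hU, hR⟩ := h
  obtain ⟨f', t', U', ht', hx', hU', hR'⟩ := h'
  have hp : p ≠ 0 := NeZero.ne p
  have hp1 : 1 ≤ p := Nat.one_le_iff_ne_zero.mpr hp
  have hpZ : (p : ℤ) ≠ 0 := Int.natCast_ne_zero.mpr hp
  have hf : f ≠ 0 := hx.ne_zero
  have hf' : f' ≠ 0 := hx'.ne_zero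
  obtain ⟨v, hv⟩ := KumUniq_exists_pow_eq hU hU' hR hR'
  -- `f / f' = g ^ p`
  set g : FF N := v / (t * t' ^ (p - 1) * f') with hg
  have hden : t * t' ^ (p - 1) * f' ≠ 0 :=
    mul_ne_zero (mul_ne_zero ht (pow_ne_zero _ ht')) hf'
  have hgp : f * f'⁻¹ = g ^ p := by
    rw [hg, div_pow, hv, eq_div_iff (pow_ne_zero _ hden)]
    have e1 : f' ^ p = f' ^ (p - 1) * f' := by
      rw [← pow_succ, Nat.sub_add_cancel hp1]
    rw [mul_pow, mul_pow, mul_pow, e1, pow_right_comm t' (p - 1) p]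
    field_simp
  have hv0 : g ≠ 0 := by
    intro h0
    rw [h0, zero_pow hp] at hgp
    exact mul_ne_zero hf (inv_ne_zero hf') hgp
  have hk := hx.add hx'.neg
  have h0 : x + -x' = 0 := by
    rw [H455.IsKummerClass.eq_zero_iff hpZ hk]
    refine ⟨g, hv0, fun w => ?_⟩
    rw [hgp, ← zpow_natCast, Place.ord_zpow]
  exact eq_neg_of_add_eq_zero_left h0 |>.trans (neg_neg x')

end Piece

end Fermat.Agent.S29.H149
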